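import Mathlib

set_option autoImplicit false

open CategoryTheory Abelian IsLocalRing Module RingTheory.Sequence

namespace Fermat.Agent.S57

/-- Finite length modules over a local ring have projective dimension bounded by the one of the
residue field. -/
theorem hasProjectiveDimensionLT_of_isFiniteLength {A : Type} [CommRing A] [IsLocalRing A] (n : ℕ)
    (hk : HasProjectiveDimensionLT (ModuleCat.of A (A ⧸ maximalIdeal A)) n)
    (L : Type) [AddCommGroup L] [Module A L] (h : IsFiniteLength A L) :
    HasProjectiveDimensionLT (ModuleCat.of A L) n := by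
  induction h with
  | @of_subsingleton M _ _ _ =>
    have hz : Limits.IsZero (ModuleCat.of A M) := ModuleCat.isZero_of_subsingleton _
    have := hz.hasProjectiveDimensionLT_zero
    exact hasProjectiveDimensionLT_of_ge _ 0 n (Nat.zero_le _)
  | @of_simple_quotient M _ _ N hs _ ih =>
    obtain ⟨I, hI, ⟨e⟩⟩ := isSimpleModule_iff_quot_maximal.mp hs
    have hI' : I = maximalIdeal A := IsLocalRing.eq_maximalIdeal hI
    subst hI'
    have h3 : HasProjectiveDimensionLT (ModuleCat.of A (M ⧸ N)) n :=
      hasProjectiveDimensionLT_of_iso (e.symm.toModuleIso) n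
    have hS := LinearMap.shortExact_shortComplexKer (Submodule.mkQ_surjective N)
    have h1 : HasProjectiveDimensionLT (ModuleCat.of A (LinearMap.ker N.mkQ)) n :=
      hasProjectiveDimensionLT_of_iso
        ((LinearEquiv.ofEq _ _ (Submodule.ker_mkQ N).symm).toModuleIso) n
    exact hS.hasProjectiveDimensionLT_X₂ n h1 h3

/-- A version of the Auslander-Buchsbaum argument: over a noetherian local ring whose maximal
ideal is generated by a regular sequence of length `n`, a finite module having a regular sequence
of length `n` with finite length quotient is free. -/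
theorem free_of_isWeaklyRegular {A : Type} [CommRing A] [IsLocalRing A] [IsNoetherianRing A]
    (xs : List A) (hxs : IsRegular A xs) (hmax : Ideal.ofList xs = maximalIdeal A)
    (N : Type) [AddCommGroup N] [Module A N] [Module.Finite A N]
    (ys : List A) (hys : IsWeaklyRegular N ys) (hmem : ∀ y ∈ ys, y ∈ maximalIdeal A)
    (hlen : ys.length = xs.length)
    (hfl : IsFiniteLength A (N ⧸ Ideal.ofList ys • (⊤ : Submodule A N))) :
    Module.Free A N := by
  rcases subsingleton_or_nontrivial N with hN | hN
  · infer_instance
  have h1 := ModuleCat.projectiveDimension_quotient_eq_add_length_of_isWeaklyRegular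
    (ModuleCat.of A N) ys hys hmem
  have h2 := ModuleCat.projectiveDimension_quotient_eq_length.{0} xs hxs
  have hk : HasProjectiveDimensionLT (ModuleCat.of A (A ⧸ maximalIdeal A)) (xs.length + 1) := by
    have h3 : projectiveDimension (ModuleCat.of A (Shrink.{0} (A ⧸ Ideal.ofList xs))) ≤
        (xs.length : ℕ) := le_of_eq h2
    rw [projectiveDimension_le_iff] at h3
    rw [← hmax]
    exact hasProjectiveDimensionLT_of_iso ((Shrink.linearEquiv A _).toModuleIso) _
  have h4 := hasProjectiveDimensionLT_of_isFiniteLength _ hk _ hfl
  have h5 : projectiveDimension (ModuleCat.of A (N ⧸ Ideal.ofList ys • (⊤ : Submodule A N))) ≤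
      (xs.length : ℕ) := by
    rw [projectiveDimension_le_iff]
    exact h4
  rw [h1, hlen] at h5
  have h6 : projectiveDimension (ModuleCat.of A N) ≤ (0 : ℕ) := by
    have : projectiveDimension (ModuleCat.of A N) + (xs.length : ℕ) ≤ (0 : ℕ) + (xs.length : ℕ) := by
      simpa using h5
    exact (ENat.WithBot.add_le_add_natCast_right_iff).mp this
  rw [projectiveDimension_le_iff] at h6
  have h7 : Projective (ModuleCat.of A N) := (projective_iff_hasProjectiveDimensionLE_zero _).mpr h6
  have h8 : Module.Projective A N := (IsProjective.iff_projective N).mpr h7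
  exact Module.free_of_flat_of_isLocalRing

end Fermat.Agent.S57
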