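import Mathlib

set_option autoImplicit false

open IsLocalRing Module

namespace Fermat.Agent.S57

theorem isArtinian_of_finite_of_torsion {𝒪 A Q : Type} [CommRing 𝒪] [IsLocalRing 𝒪] [CommRing A]
    [Algebra 𝒪 A] [AddCommGroup Q] [Module 𝒪 Q] [Module A Q] [IsScalarTower 𝒪 A Q]
    [Module.Finite 𝒪 Q] (h : ∀ a ∈ maximalIdeal 𝒪, ∀ q : Q, a • q = 0) : IsArtinian A Q := by
  have ht : Module.IsTorsionBySet 𝒪 Q (maximalIdeal 𝒪 : Set 𝒪) := by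
    intro q a
    exact h a.1 a.2 q
  let _ : Module (𝒪 ⧸ maximalIdeal 𝒪) Q := ht.module
  let _ : Field (𝒪 ⧸ maximalIdeal 𝒪) := Ideal.Quotient.field (maximalIdeal 𝒪)
  have : Module.Finite (𝒪 ⧸ maximalIdeal 𝒪) Q :=
    Module.Finite.of_restrictScalars_finite 𝒪 (𝒪 ⧸ maximalIdeal 𝒪) Q
  have h1 : IsArtinian (𝒪 ⧸ maximalIdeal 𝒪) Q := inferInstance
  have h2 : IsArtinian 𝒪 Q :=
    isArtinian_of_surjective_algebraMap (S := 𝒪) (R := 𝒪 ⧸ maximalIdeal 𝒪)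
      Ideal.Quotient.mk_surjective
  exact isArtinian_of_tower 𝒪 h2

end Fermat.Agent.S57
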