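import Mathlib

set_option autoImplicit false

open IsLocalRing Module RingTheory.Sequence
open scoped Pointwise

namespace Fermat.Agent.S57

/-- Lifting a weakly regular sequence through a surjection with principal kernel generated by a
regular element. -/
theorem isWeaklyRegular_cons_of_surjective {A B : Type} [CommRing A] [CommRing B] (π : A →+* B)
    (hπ : Function.Surjective π) (x : A) (hker : RingHom.ker π = Ideal.span {x})
    (hx : IsSMulRegular A x) (as : List A) (h : IsWeaklyRegular B (as.map π)) :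
    IsWeaklyRegular A (x :: as) := by
  let _ := π.toAlgebra
  rw [isWeaklyRegular_cons_iff]
  refine ⟨hx, ?_⟩
  have h1 : IsWeaklyRegular B as := (isWeaklyRegular_map_algebraMap_iff B B as).mp h
  have hsurj : Function.Surjective (Algebra.linearMap A B) := hπ
  have hk : (x • (⊤ : Submodule A A)) = LinearMap.ker (Algebra.linearMap A B) := by
    ext y
    have : y ∈ LinearMap.ker (Algebra.linearMap A B) ↔ y ∈ RingHom.ker π := Iff.rfl
    rw [this, hker, Ideal.mem_span_singleton, Submodule.mem_smul_pointwise_iff_exists]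
    constructor
    · rintro ⟨z, -, rfl⟩
      exact ⟨z, rfl⟩
    · rintro ⟨z, rfl⟩
      exact ⟨z, trivial, rfl⟩
  let e : QuotSMulTop x A ≃ₗ[A] B :=
    (Submodule.quotEquivOfEq _ _ hk).trans (LinearMap.quotKerEquivOfSurjective _ hsurj)
  exact (e.isWeaklyRegular_congr as).mpr h1

theorem ofList_cons_eq_comap_of_surjective {A B : Type} [CommRing A] [CommRing B] (π : A →+* B)
    (hπ : Function.Surjective π) (x : A) (hker : RingHom.ker π = Ideal.span {x})
    (as : List A) :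
    Ideal.ofList (x :: as) = (Ideal.ofList (as.map π)).comap π := by
  rw [← Ideal.map_ofList, Ideal.comap_map_of_surjective π hπ, Ideal.ofList_cons,
    ← RingHom.ker_eq_comap_bot, hker, sup_comm]

variable (𝒪 : Type) [CommRing 𝒪]

/-- The projection `𝒪⟦X₀,…,X_r⟧ → 𝒪⟦X₀,…,X_{r-1}⟧` killing `X₀`. -/
noncomputable def killX0 (r : ℕ) : MvPowerSeries (Fin (r + 1)) 𝒪 →+* MvPowerSeries (Fin r) 𝒪 :=
  (PowerSeries.constantCoeff (R := MvPowerSeries (Fin r) 𝒪)).comp
    (MvPowerSeries.finSuccEquiv 𝒪 r).toRingEquiv.toRingHom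

theorem killX0_surjective (r : ℕ) : Function.Surjective (killX0 𝒪 r) := by
  intro f
  refine ⟨(MvPowerSeries.finSuccEquiv 𝒪 r).symm (PowerSeries.C f), ?_⟩
  simp [killX0]

theorem killX0_X_succ (r : ℕ) (j : Fin r) :
    killX0 𝒪 r (MvPowerSeries.X j.succ) = MvPowerSeries.X j := by
  simp [killX0]

theorem killX0_C (r : ℕ) (a : 𝒪) :
    killX0 𝒪 r (MvPowerSeries.C a) = MvPowerSeries.C a := by
  simp [killX0]

theorem ker_killX0 (r : ℕ) :
    RingHom.ker (killX0 𝒪 r) = Ideal.span {(MvPowerSeries.X 0 : MvPowerSeries (Fin (r + 1)) 𝒪)} := by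
  ext f
  rw [RingHom.mem_ker, Ideal.mem_span_singleton]
  have h1 : killX0 𝒪 r f = PowerSeries.constantCoeff (MvPowerSeries.finSuccEquiv 𝒪 r f) := rfl
  rw [h1, ← PowerSeries.X_dvd_iff]
  constructor
  · rintro ⟨g, hg⟩
    refine ⟨(MvPowerSeries.finSuccEquiv 𝒪 r).symm g, ?_⟩
    apply (MvPowerSeries.finSuccEquiv 𝒪 r).injective
    rw [hg, map_mul]
    simp
  · rintro ⟨g, rfl⟩
    refine ⟨MvPowerSeries.finSuccEquiv 𝒪 r g, ?_⟩
    rw [map_mul]
    simp

/-- The standard system of parameters `X₀, …, X_{r-1}, ϖ`. -/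
noncomputable def stdSeq (r : ℕ) (ϖ : 𝒪) : List (MvPowerSeries (Fin r) 𝒪) :=
  List.ofFn (fun i : Fin r => (MvPowerSeries.X i : MvPowerSeries (Fin r) 𝒪)) ++ [MvPowerSeries.C ϖ]

theorem stdSeq_succ (r : ℕ) (ϖ : 𝒪) :
    stdSeq 𝒪 (r + 1) ϖ = MvPowerSeries.X 0 ::
      (List.ofFn (fun i : Fin r => (MvPowerSeries.X i.succ : MvPowerSeries (Fin (r + 1)) 𝒪))
        ++ [MvPowerSeries.C ϖ]) := by
  simp [stdSeq, List.ofFn_succ]

theorem map_killX0_tail (r : ℕ) (ϖ : 𝒪) :
    (List.ofFn (fun i : Fin r => (MvPowerSeries.X i.succ : MvPowerSeries (Fin (r + 1)) 𝒪))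
        ++ [MvPowerSeries.C ϖ]).map (killX0 𝒪 r) = stdSeq 𝒪 r ϖ := by
  simp [stdSeq, List.map_ofFn, Function.comp_def, killX0_X_succ, killX0_C]

theorem length_stdSeq (r : ℕ) (ϖ : 𝒪) : (stdSeq 𝒪 r ϖ).length = r + 1 := by
  simp [stdSeq]

variable [IsDomain 𝒪]

theorem isWeaklyRegular_stdSeq (r : ℕ) (ϖ : 𝒪) (hϖ : ϖ ≠ 0) :
    IsWeaklyRegular (MvPowerSeries (Fin r) 𝒪) (stdSeq 𝒪 r ϖ) := by
  induction r with
  | zero =>
    have : stdSeq 𝒪 0 ϖ = [MvPowerSeries.C ϖ] := by simp [stdSeq]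
    rw [this, isWeaklyRegular_singleton_iff]
    have hne : (MvPowerSeries.C ϖ : MvPowerSeries (Fin 0) 𝒪) ≠ 0 := by
      intro h
      apply hϖ
      have := congrArg MvPowerSeries.constantCoeff h
      simpa using this
    exact (IsRegular.of_ne_zero hne).isSMulRegular
  | succ r ih =>
    rw [stdSeq_succ]
    apply isWeaklyRegular_cons_of_surjective (killX0 𝒪 r) (killX0_surjective 𝒪 r) _ (ker_killX0 𝒪 r)
    · have hne : (MvPowerSeries.X 0 : MvPowerSeries (Fin (r + 1)) 𝒪) ≠ 0 := by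
        intro h
        have := congrArg (MvPowerSeries.coeff (Finsupp.single 0 1)) h
        simp [MvPowerSeries.coeff_X] at this
      exact (IsRegular.of_ne_zero hne).isSMulRegular
    · rw [map_killX0_tail]
      exact ih

omit [IsDomain 𝒪] in
theorem mem_maximalIdeal_mvPowerSeries_iff [IsLocalRing 𝒪] (r : ℕ) (f : MvPowerSeries (Fin r) 𝒪) :
    f ∈ maximalIdeal (MvPowerSeries (Fin r) 𝒪) ↔ MvPowerSeries.constantCoeff f ∈ maximalIdeal 𝒪 := by
  rw [mem_maximalIdeal, mem_maximalIdeal, mem_nonunits_iff, mem_nonunits_iff,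
    MvPowerSeries.isUnit_iff_constantCoeff]

omit [IsDomain 𝒪] in
theorem ofList_stdSeq [IsLocalRing 𝒪] (r : ℕ) (ϖ : 𝒪) (hϖ : maximalIdeal 𝒪 = Ideal.span {ϖ}) :
    Ideal.ofList (stdSeq 𝒪 r ϖ) = maximalIdeal (MvPowerSeries (Fin r) 𝒪) := by
  induction r with
  | zero =>
    have : stdSeq 𝒪 0 ϖ = [MvPowerSeries.C ϖ] := by simp [stdSeq]
    rw [this, Ideal.ofList_singleton]
    ext f
    rw [mem_maximalIdeal_mvPowerSeries_iff, hϖ, Ideal.mem_span_singleton, Ideal.mem_span_singleton]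
    have hf : ∀ g : MvPowerSeries (Fin 0) 𝒪, g = MvPowerSeries.C (MvPowerSeries.constantCoeff g) :=
      fun g => ((MvPowerSeries.isEmptyEquiv (Fin 0) 𝒪).left_inv g).symm
    constructor
    · rintro ⟨g, rfl⟩
      exact ⟨MvPowerSeries.constantCoeff g, by simp⟩
    · rintro ⟨a, ha⟩
      refine ⟨MvPowerSeries.C a, ?_⟩
      rw [hf f, ha, map_mul]
  | succ r ih =>
    rw [stdSeq_succ, ofList_cons_eq_comap_of_surjective (killX0 𝒪 r) (killX0_surjective 𝒪 r) _
      (ker_killX0 𝒪 r), map_killX0_tail, ih]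
    have := IsLocalHom.of_surjective (killX0 𝒪 r) (killX0_surjective 𝒪 r)
    exact IsLocalRing.maximalIdeal_comap (killX0 𝒪 r)

end Fermat.Agent.S57
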