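import Fermat.Statements.S57
import Fermat.Agent.S57.AB
import Fermat.Agent.S57.RegSeq
import Fermat.Agent.S57.Art

set_option autoImplicit false

open IsLocalRing Module RingTheory.Sequence

namespace Fermat.Agent.S57

section

variable {𝒪 : Type} [CommRing 𝒪] [IsDomain 𝒪] [IsDiscreteValuationRing 𝒪]
    {r : ℕ} {R : Type} [CommRing R] [Algebra 𝒪 R]
    {M : Type} [AddCommGroup M] [Module R M]
    (L : Algebra.PatchingLevel 𝒪 r R M ⊥)

local notation "A" => MvPowerSeries (Fin r) 𝒪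

/-- any `𝒪`-algebra endomorphism of the power series ring is local. -/
theorem phi_mem_maximalIdeal (φ : A →ₐ[𝒪] A) (f : A) (hf : f ∈ maximalIdeal A) :
    φ f ∈ maximalIdeal A := by
  by_contra hcon
  rw [mem_maximalIdeal, mem_nonunits_iff, not_not] at hcon
  set u : 𝒪 := MvPowerSeries.constantCoeff (φ f) with hu
  have hu1 : IsUnit u := MvPowerSeries.isUnit_iff_constantCoeff.mp hcon
  have h1 : IsUnit (f - MvPowerSeries.C u) := by
    rw [MvPowerSeries.isUnit_iff_constantCoeff, map_sub, MvPowerSeries.constantCoeff_C]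
    rw [mem_maximalIdeal_mvPowerSeries_iff] at hf
    by_contra h2
    have h3 : MvPowerSeries.constantCoeff f - u ∈ maximalIdeal 𝒪 := h2
    have h4 : u ∈ maximalIdeal 𝒪 := by
      have := (maximalIdeal 𝒪).sub_mem hf h3
      simpa using this
    exact h4 hu1
  have h2 : IsUnit (φ (f - MvPowerSeries.C u)) := h1.map φ
  have h3 : φ (MvPowerSeries.C u) = MvPowerSeries.C u := by
    have := φ.commutes u
    simpa [MvPowerSeries.algebraMap_apply] using this
  rw [map_sub, h3, MvPowerSeries.isUnit_iff_constantCoeff, map_sub,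
    MvPowerSeries.constantCoeff_C, ← hu, sub_self] at h2
  exact not_isUnit_zero h2

theorem phi_C (φ : A →ₐ[𝒪] A) (a : 𝒪) : φ (MvPowerSeries.C a) = MvPowerSeries.C a := by
  have := φ.commutes a
  simpa [MvPowerSeries.algebraMap_apply] using this

/-- the additive equivalence `A^d ≃ N`. -/
noncomputable def coordHom : (Fin L.d → A) →+ L.N where
  toFun := fun c => ∑ i, L.φ (c i) • L.b i
  map_zero' := by simp
  map_add' := fun c c' => by simp [add_smul, Finset.sum_add_distrib]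

/-- the additive equivalence `A^d ≃ N`. -/
noncomputable def coordEquiv : (Fin L.d → A) ≃+ L.N :=
  AddEquiv.ofBijective (coordHom L)
    (by
      constructor
      · rw [injective_iff_map_eq_zero]
        intro c hc
        have := (L.b_rel c).mp hc
        funext i
        simpa using this i
      · intro x
        obtain ⟨c, hc⟩ := L.b_span x
        exact ⟨c, hc.symm⟩)

theorem coordEquiv_apply (c : Fin L.d → A) : coordEquiv L c = ∑ i, L.φ (c i) • L.b i := rfl

theorem coordEquiv_smul (s : A) (c : Fin L.d → A) :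
    coordEquiv L (s • c) = L.φ s • coordEquiv L c := by
  simp [coordEquiv_apply, Finset.smul_sum, mul_smul]

theorem finite_N : Module.Finite A L.N := by
  classical
  refine ⟨⟨Finset.univ.image L.b, ?_⟩⟩
  rw [eq_top_iff]
  intro x _
  obtain ⟨c, rfl⟩ := L.b_span x
  refine Submodule.sum_mem _ fun i _ => Submodule.smul_mem _ _ (Submodule.subset_span ?_)
  simp

theorem isWeaklyRegular_N (ϖ : 𝒪) (hϖ : ϖ ≠ 0) :
    IsWeaklyRegular L.N ((stdSeq 𝒪 r ϖ).map L.φ) := by
  have h1 : IsWeaklyRegular A (stdSeq 𝒪 r ϖ) := isWeaklyRegular_stdSeq 𝒪 r ϖ hϖ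
  have h2 : IsWeaklyRegular (TensorProduct A A (Fin L.d → A)) (stdSeq 𝒪 r ϖ) :=
    h1.isWeaklyRegular_rTensor
  have h3 : IsWeaklyRegular (Fin L.d → A) (stdSeq 𝒪 r ϖ) :=
    ((TensorProduct.lid A (Fin L.d → A)).isWeaklyRegular_congr _).mp h2
  refine ((coordEquiv L).isWeaklyRegular_congr ?_).mp h3
  exact List.forall₂_map_right_iff.mpr <| List.forall₂_same.mpr fun s _ c => coordEquiv_smul L s c

theorem phi_mem_ofList (ϖ : 𝒪) (hϖ : maximalIdeal 𝒪 = Ideal.span {ϖ}) (f : A)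
    (hf : f ∈ maximalIdeal A) : L.φ f ∈ Ideal.ofList ((stdSeq 𝒪 r ϖ).map L.φ) := by
  have h1 : Ideal.ofList ((stdSeq 𝒪 r ϖ).map L.φ) =
      Ideal.map (L.φ : A →+* A) (Ideal.ofList (stdSeq 𝒪 r ϖ)) := by
    rw [Ideal.map_ofList]
    rfl
  rw [h1, ofList_stdSeq 𝒪 r ϖ hϖ]
  exact Ideal.mem_map_of_mem (L.φ : A →+* A) hf

theorem isFiniteLength_quot (ϖ : 𝒪) (hϖ : maximalIdeal 𝒪 = Ideal.span {ϖ}) :
    IsFiniteLength A (L.N ⧸ Ideal.ofList ((stdSeq 𝒪 r ϖ).map L.φ) • (⊤ : Submodule A L.N)) := by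
  have := finite_N L
  rw [isFiniteLength_iff_isNoetherian_isArtinian]
  refine ⟨inferInstance, ?_⟩
  set J := Ideal.ofList ((stdSeq 𝒪 r ϖ).map L.φ) with hJ
  let _ : Module 𝒪 (L.N ⧸ J • (⊤ : Submodule A L.N)) :=
    Module.compHom _ (algebraMap 𝒪 A)
  have hsm : ∀ (a : 𝒪) (q : L.N ⧸ J • (⊤ : Submodule A L.N)),
      a • q = (MvPowerSeries.C a : A) • q := fun a q => rfl
  have : IsScalarTower 𝒪 A (L.N ⧸ J • (⊤ : Submodule A L.N)) :=
    ⟨fun a f q => by
      rw [hsm, Algebra.smul_def, mul_smul]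
      rfl⟩
  have hfin : Module.Finite 𝒪 (L.N ⧸ J • (⊤ : Submodule A L.N)) := by
    classical
    refine ⟨⟨Finset.univ.image (fun i => Submodule.Quotient.mk (L.b i)), ?_⟩⟩
    rw [eq_top_iff]
    intro q _
    obtain ⟨x, rfl⟩ := Submodule.Quotient.mk_surjective _ q
    obtain ⟨c, rfl⟩ := L.b_span x
    have key : ∀ i, (Submodule.Quotient.mk (L.φ (c i) • L.b i) : L.N ⧸ J • (⊤ : Submodule A L.N)) =
        (MvPowerSeries.constantCoeff (c i) : 𝒪) • Submodule.Quotient.mk (L.b i) := by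
      intro i
      rw [hsm, ← Submodule.Quotient.mk_smul, Submodule.Quotient.eq, ← sub_smul,
        ← phi_C L.φ, ← map_sub]
      refine Submodule.smul_mem_smul (phi_mem_ofList L ϖ hϖ _ ?_) trivial
      rw [mem_maximalIdeal_mvPowerSeries_iff]
      simp
    have hsum : (Submodule.Quotient.mk (∑ i, L.φ (c i) • L.b i) :
        L.N ⧸ J • (⊤ : Submodule A L.N)) =
        ∑ i, (Submodule.Quotient.mk (L.φ (c i) • L.b i) : L.N ⧸ J • (⊤ : Submodule A L.N)) :=
      map_sum (Submodule.mkQ (J • (⊤ : Submodule A L.N))) _ _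
    rw [hsum]
    refine Submodule.sum_mem _ fun i _ => ?_
    rw [key]
    refine Submodule.smul_mem _ _ (Submodule.subset_span ?_)
    simp
  refine isArtinian_of_finite_of_torsion (𝒪 := 𝒪) ?_
  intro a ha q
  obtain ⟨x, rfl⟩ := Submodule.Quotient.mk_surjective _ q
  rw [hsm, ← Submodule.Quotient.mk_smul, Submodule.Quotient.mk_eq_zero, ← phi_C L.φ]
  refine Submodule.smul_mem_smul (phi_mem_ofList L ϖ hϖ _ ?_) trivial
  rw [mem_maximalIdeal_mvPowerSeries_iff]
  simpa using ha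

theorem free_N : Module.Free A L.N := by
  obtain ⟨ϖ, hϖ⟩ := IsDiscreteValuationRing.exists_irreducible 𝒪
  have hmax : maximalIdeal 𝒪 = Ideal.span {ϖ} := hϖ.maximalIdeal_eq
  have := finite_N L
  have hreg : IsRegular A (stdSeq 𝒪 r ϖ) := by
    refine ⟨isWeaklyRegular_stdSeq 𝒪 r ϖ hϖ.ne_zero, ?_⟩
    rw [ofList_stdSeq 𝒪 r ϖ hmax, smul_eq_mul, Ideal.mul_top]
    exact (Ideal.IsPrime.ne_top inferInstance).symm
  refine free_of_isWeaklyRegular (stdSeq 𝒪 r ϖ) hreg (ofList_stdSeq 𝒪 r ϖ hmax) L.N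
    ((stdSeq 𝒪 r ϖ).map L.φ) (isWeaklyRegular_N L ϖ hϖ.ne_zero) ?_ (by simp)
    (isFiniteLength_quot L ϖ hmax)
  intro y hy
  obtain ⟨x, hx, rfl⟩ := List.mem_map.mp hy
  apply phi_mem_maximalIdeal
  rw [← ofList_stdSeq 𝒪 r ϖ hmax]
  exact Ideal.subset_span hx

end

end Fermat.Agent.S57
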